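/-
S52 / [JPOLE] (helper19).  Prefix `s52w_`.

`K` algebraically closed of characteristic `0`, `F / K` a function field, `x ∈ F` transcendental,
`F / K(x)` finite Galois with group `G`.  For a place `v` over `x = c`:

* `s52w_ord_eq_card_stab` : `ord_v (x - c) = #Stab_G(v)`;
* `s52w_not_three_dvd`    : if every `σ ∈ Stab_G(v)` has `σ⁴ = 1 ∨ σ⁵ = 1` then `3 ∤ ord_v (x - c)`;
* `s52w_rootless`         : (`c ≠ 0`) then no `h ∈ F` satisfies
                            `(h + 27)(h + 3)³ (x - c) = 1728 x h`,
  i.e. the `X₀(3)`-quartic of `j = 1728 x / (x - c)` has no root in `F`.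
-/
import Mathlib
import Fermat.Agent.S52.HUR.Main
import Fermat.Agent.JT3.Riemann.Approx

set_option autoImplicit false
set_option linter.unusedSectionVars false

noncomputable section

namespace Fermat.Agent.S52

open AlgebraicCurve IntermediateField IsLocalRing
open Fermat.Agent.S24
open scoped Pointwise

universe u v
variable {K : Type u} {F : Type v} [Field K] [Field F] [Algebra K F]
variable [IsAlgClosed K] [CharZero K] {x : F} [FiniteDimensional K⟮x⟯ F]

/-- every `σ` stabilising a place `v` over `x = c` satisfies `σ ^ e = 1`, `e = ord_v (x - c)`. -/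
theorem s52w_pow_eq_one_of_stab (hx : Transcendental K x) (c : K) (v : Place K F)
    (hv : v ∈ hw_placesOver x c) (σ : F ≃ₐ[K⟮x⟯] F)
    (hσ : σ • v.toValuationSubring = v.toValuationSubring) :
    σ ^ (v.ord (x - algebraMap K F c)).toNat = 1 := by
  have hg0 : x - algebraMap K F c ≠ 0 := s52u_sub_ne_zero hx c
  have hv' : 0 < v.ord (x - algebraMap K F c) := hv
  have hgA : x - algebraMap K F c ∈ v.toValuationSubring :=
    (hw_mem_iff_ord_nonneg v hg0).mpr hv'.le
  obtain ⟨π, hπ⟩ := IsDiscreteValuationRing.exists_irreducible ↥v.toValuationSubring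
  set g' : ↥v.toValuationSubring := ⟨x - algebraMap K F c, hgA⟩ with hg'
  have hg'0 : g' ≠ 0 := by
    intro h
    apply hg0
    exact congrArg Subtype.val h
  obtain ⟨n, u, hu⟩ := IsDiscreteValuationRing.eq_unit_mul_pow_irreducible hg'0 hπ
  -- `ord g = n`
  have hord : v.ord (x - algebraMap K F c) = n := by
    have h1 : (x - algebraMap K F c : F) =
        ((u : ↥v.toValuationSubring) : F) * ((π : F) ^ (n : ℤ)) := by
      have := congrArg Subtype.val hu
      simpa using this
    rw [h1]
    exact v.ord_unit_smul_zpow u hπ n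
  rw [hord, Int.toNat_natCast]
  -- the stabiliser element
  set σ' : ↥(MulAction.stabilizer (F ≃ₐ[K⟮x⟯] F) v.toValuationSubring) :=
    ⟨σ, MulAction.mem_stabilizer_iff.mpr hσ⟩ with hσ'
  have hspec := s52u_mult_spec v hπ σ'
  set w := s52u_mult v hπ σ' with hw
  -- `ρ g' = g'`
  have hρg : s52u_res v σ hσ g' = g' := by
    apply Subtype.ext
    rw [s52u_res_coe]
    show σ (x - algebraMap K F c) = x - algebraMap K F c
    rw [map_sub, s52u_fix_x, s52u_fix_const]
  have h2 : (u : ↥v.toValuationSubring) * π ^ n =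
      s52u_res v σ hσ (u : ↥v.toValuationSubring) * (π * w) ^ n := by
    have h3 : s52u_res v σ hσ g' = s52u_res v σ hσ (u : ↥v.toValuationSubring) *
        (s52u_res v σ hσ π) ^ n := by
      rw [hu, map_mul, map_pow]
    rw [hρg] at h3
    rw [← hu]
    rw [h3]
    congr 2
  have h4 : (u : ↥v.toValuationSubring) =
      s52u_res v σ hσ (u : ↥v.toValuationSubring) * w ^ n := by
    have hπn : π ^ n ≠ 0 := pow_ne_zero n hπ.ne_zero
    apply mul_right_cancel₀ hπn
    rw [h2, mul_pow]
    ring
  -- residues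
  have h5 : residue ↥v.toValuationSubring (s52u_res v σ hσ (u : ↥v.toValuationSubring)) =
      residue ↥v.toValuationSubring (u : ↥v.toValuationSubring) := by
    have := s52u_res_sub_mem v σ hσ (u : ↥v.toValuationSubring)
    rw [← IsLocalRing.residue_eq_zero_iff, map_sub, sub_eq_zero] at this
    exact this
  have h6 := congrArg (residue ↥v.toValuationSubring) h4
  rw [map_mul, map_pow, h5] at h6
  have hu0 : residue ↥v.toValuationSubring (u : ↥v.toValuationSubring) ≠ 0 := by
    intro h
    rw [IsLocalRing.residue_eq_zero_iff] at h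
    exact (IsLocalRing.mem_maximalIdeal _).mp h u.isUnit
  have h7 : (residue ↥v.toValuationSubring w) ^ n = 1 := by
    have : residue ↥v.toValuationSubring (u : ↥v.toValuationSubring) * 1 =
        residue ↥v.toValuationSubring (u : ↥v.toValuationSubring) *
          (residue ↥v.toValuationSubring w) ^ n := by
      rw [mul_one]; exact h6
    exact (mul_left_cancel₀ hu0 this).symm
  -- the character
  have h8 : s52u_chi (x := x) v hπ (σ' ^ n) = 1 := by
    rw [map_pow]
    exact h7
  have h9 : σ' ^ n = 1 := s52u_chi_injective v hπ (by rw [h8, map_one])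
  have := congrArg Subtype.val h9
  simpa using this

/-- `Nat.card Stab ∣ ord_v (x - c)`. -/
theorem s52w_card_stab_dvd (hx : Transcendental K x) (c : K) (v : Place K F)
    (hv : v ∈ hw_placesOver x c) :
    Nat.card ↥(MulAction.stabilizer (F ≃ₐ[K⟮x⟯] F) v.toValuationSubring) ∣
      (v.ord (x - algebraMap K F c)).toNat :=
  s52u_stab_card_dvd x v _ (fun σ hσ => s52w_pow_eq_one_of_stab hx c v hv σ hσ)

/-- `ord` at a translated place. -/
theorem s52w_ord_of_smul (σ : F ≃ₐ[K⟮x⟯] F) (v w : Place K F)
    (hw : w.toValuationSubring = σ • v.toValuationSubring) (f : F) :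
    w.ord (σ f) = v.ord f := by
  have e : w = (σ.restrictScalars K) • v := by
    apply Place.ext
    rw [hw, Place.smul_toValuationSubring]
    ext y
    rw [ValuationSubring.mem_pointwise_smul_iff_inv_smul_mem,
      ValuationSubring.mem_pointwise_smul_iff_inv_smul_mem]
    rfl
  rw [e]
  exact Place.ord_smul (σ.restrictScalars K) v f

variable [IsGalois K⟮x⟯ F]

/-- `ord_v (x - c) ≤ Nat.card Stab` (orbit–stabiliser and the degree formula). -/
theorem s52w_ord_le_card_stab (hx : Transcendental K x) (c : K) (v : Place K F)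
    (hv : v ∈ hw_placesOver x c) :
    v.ord (x - algebraMap K F c) ≤
      (Nat.card ↥(MulAction.stabilizer (F ≃ₐ[K⟮x⟯] F) v.toValuationSubring) : ℤ) := by
  classical
  have hfin := hw_finite_fiber hx c
  have hsum := hw_sum_fiber_toFinset hx c
  have horb : Nat.card ↥(MulAction.stabilizer (F ≃ₐ[K⟮x⟯] F) v.toValuationSubring) *
      (MulAction.orbit (F ≃ₐ[K⟮x⟯] F) v.toValuationSubring).ncard =
      Module.finrank K⟮x⟯ F := by
    have h1 := Subgroup.card_mul_index
      (MulAction.stabilizer (F ≃ₐ[K⟮x⟯] F) v.toValuationSubring)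
    rw [IsGalois.card_aut_eq_finrank, MulAction.index_stabilizer] at h1
    exact h1
  set T' := hfin.toFinset.filter
    (fun w => w.toValuationSubring ∈ MulAction.orbit (F ≃ₐ[K⟮x⟯] F) v.toValuationSubring)
    with hT'
  have hinj : Function.Injective (Place.toValuationSubring : Place K F → ValuationSubring F) :=
    fun w w' h => Place.ext h
  have himg : ((T'.image Place.toValuationSubring : Finset (ValuationSubring F)) :
      Set (ValuationSubring F)) = MulAction.orbit (F ≃ₐ[K⟮x⟯] F) v.toValuationSubring := by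
    ext B
    simp only [Finset.coe_image, Set.mem_image, Finset.mem_coe]
    constructor
    · rintro ⟨w, hw, rfl⟩
      exact (Finset.mem_filter.mp hw).2
    · intro hB
      obtain ⟨σ, hσ⟩ := MulAction.mem_orbit_iff.mp hB
      refine ⟨s52u_smul σ v, ?_, ?_⟩
      · rw [hT', Finset.mem_filter]
        refine ⟨?_, ?_⟩
        · rw [Set.Finite.mem_toFinset]
          exact s52u_smul_mem_placesOver hx σ v c hv
        · rw [s52u_smul_toValuationSubring]
          exact MulAction.mem_orbit _ σ
      · rw [s52u_smul_toValuationSubring]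
        exact hσ
  have hcard : T'.card =
      (MulAction.orbit (F ≃ₐ[K⟮x⟯] F) v.toValuationSubring).ncard := by
    rw [← himg, Set.ncard_coe_finset, Finset.card_image_of_injective _ hinj]
  have hconst : ∀ w ∈ T', w.ord (x - algebraMap K F c) = v.ord (x - algebraMap K F c) := by
    intro w hw
    obtain ⟨σ, hσ⟩ := MulAction.mem_orbit_iff.mp (Finset.mem_filter.mp hw).2
    have h1 := s52w_ord_of_smul σ v w hσ.symm (x - algebraMap K F c)
    rw [map_sub, s52u_fix_x, s52u_fix_const] at h1
    exact h1
  have hle : (T'.card : ℤ) * v.ord (x - algebraMap K F c) ≤ (Module.finrank K⟮x⟯ F : ℤ) := by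
    calc (T'.card : ℤ) * v.ord (x - algebraMap K F c)
        = ∑ w ∈ T', w.ord (x - algebraMap K F c) := by
          rw [Finset.sum_congr rfl hconst, Finset.sum_const, nsmul_eq_mul]
      _ ≤ ∑ w ∈ hfin.toFinset, w.ord (x - algebraMap K F c) := by
          apply Finset.sum_le_sum_of_subset_of_nonneg (Finset.filter_subset _ _)
          intro w hw _
          rw [Set.Finite.mem_toFinset] at hw
          exact le_of_lt hw
      _ = (Module.finrank K⟮x⟯ F : ℤ) := hsum
  have hpos : 0 < (MulAction.orbit (F ≃ₐ[K⟮x⟯] F) v.toValuationSubring).ncard := by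
    rcases Nat.eq_zero_or_pos
      (MulAction.orbit (F ≃ₐ[K⟮x⟯] F) v.toValuationSubring).ncard with h | h
    · rw [h, mul_zero] at horb
      have : 0 < Module.finrank K⟮x⟯ F := Module.finrank_pos
      omega
    · exact h
  rw [hcard] at hle
  have horb' : (Nat.card ↥(MulAction.stabilizer (F ≃ₐ[K⟮x⟯] F) v.toValuationSubring) : ℤ) *
      ((MulAction.orbit (F ≃ₐ[K⟮x⟯] F) v.toValuationSubring).ncard : ℤ) =
      (Module.finrank K⟮x⟯ F : ℤ) := by exact_mod_cast horb
  have hpos' : (0 : ℤ) < ((MulAction.orbit (F ≃ₐ[K⟮x⟯] F) v.toValuationSubring).ncard : ℤ) := by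
    exact_mod_cast hpos
  by_contra hcon
  push Not at hcon
  nlinarith

/-- **(P1)** `ord_v (x - c) = #Stab_G(v)`. -/
theorem s52w_ord_eq_card_stab (hx : Transcendental K x) (c : K) (v : Place K F)
    (hv : v ∈ hw_placesOver x c) :
    v.ord (x - algebraMap K F c) =
      (Nat.card ↥(MulAction.stabilizer (F ≃ₐ[K⟮x⟯] F) v.toValuationSubring) : ℤ) := by
  have h1 := s52w_ord_le_card_stab hx c v hv
  have h2 := s52w_card_stab_dvd hx c v hv
  have hv' : 0 < v.ord (x - algebraMap K F c) := hv
  have h3 : 0 < (v.ord (x - algebraMap K F c)).toNat := by omega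
  have h4 := Nat.le_of_dvd h3 h2
  omega

/-- **(P2)** if every element of the stabiliser is killed by `4` or by `5`, then
`3 ∤ ord_v (x - c)`. -/
theorem s52w_not_three_dvd (hx : Transcendental K x) (c : K) (v : Place K F)
    (hv : v ∈ hw_placesOver x c)
    (h45 : ∀ σ : F ≃ₐ[K⟮x⟯] F, (∀ f ∈ v.toValuationSubring, σ f ∈ v.toValuationSubring) →
      σ ^ 4 = 1 ∨ σ ^ 5 = 1) :
    ¬ (3 : ℤ) ∣ v.ord (x - algebraMap K F c) := by
  intro h3
  rw [s52w_ord_eq_card_stab hx c v hv] at h3
  have h3' : 3 ∣ Nat.card ↥(MulAction.stabilizer (F ≃ₐ[K⟮x⟯] F) v.toValuationSubring) := by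
    exact_mod_cast h3
  have : Fact (Nat.Prime 3) := ⟨by norm_num⟩
  obtain ⟨σ, hσ⟩ := exists_prime_orderOf_dvd_card' 3 h3'
  have hstab : (σ : F ≃ₐ[K⟮x⟯] F) • v.toValuationSubring = v.toValuationSubring :=
    MulAction.mem_stabilizer_iff.mp σ.2
  have hord : orderOf (σ : F ≃ₐ[K⟮x⟯] F) = 3 := by
    rw [Subgroup.orderOf_coe]; exact hσ
  rcases h45 σ (s52u_stab_of_mem hstab) with h | h
  · have := orderOf_dvd_of_pow_eq_one h
    rw [hord] at this
    omega
  · have := orderOf_dvd_of_pow_eq_one h
    rw [hord] at this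
    omega

/-- **(P3)** the `X₀(3)`-quartic of `j = 1728 x / (x - c)` has no root in `F`, as soon as all
stabilisers of the places over `x = c` (the poles of `j`) consist of elements killed by `4` or by
`5`. -/
theorem s52w_rootless (hx : Transcendental K x) (c : K) (hc : c ≠ 0)
    (h45 : ∀ v ∈ hw_placesOver x c, ∀ σ : F ≃ₐ[K⟮x⟯] F,
      (∀ f ∈ v.toValuationSubring, σ f ∈ v.toValuationSubring) → σ ^ 4 = 1 ∨ σ ^ 5 = 1) :
    ∀ h : F, (h + 27) * (h + 3) ^ 3 * (x - algebraMap K F c) ≠ 1728 * x * h := by
  intro h heq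
  have hg0 : x - algebraMap K F c ≠ 0 := s52u_sub_ne_zero hx c
  have hx0 : x ≠ 0 := by
    intro h0
    apply hx
    rw [h0]
    exact isAlgebraic_zero
  have e27 : (27 : F) = algebraMap K F 27 := (map_ofNat (algebraMap K F) 27).symm
  have e3 : (3 : F) = algebraMap K F 3 := (map_ofNat (algebraMap K F) 3).symm
  have e1728 : (1728 : F) = algebraMap K F 1728 := (map_ofNat (algebraMap K F) 1728).symm
  have n27 : algebraMap K F 27 ≠ 0 := by
    rw [Ne, map_eq_zero_iff _ (algebraMap K F).injective]; norm_num
  have n3 : algebraMap K F 3 ≠ 0 := by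
    rw [Ne, map_eq_zero_iff _ (algebraMap K F).injective]; norm_num
  have n1728 : algebraMap K F 1728 ≠ 0 := by
    rw [Ne, map_eq_zero_iff _ (algebraMap K F).injective]; norm_num
  have ncF : algebraMap K F c ≠ 0 := by
    rw [Ne, map_eq_zero_iff _ (algebraMap K F).injective]; exact hc
  -- Step 1: `h` has no pole
  have hnopole : ∀ w : Place K F, h ∈ w.toValuationSubring := by
    intro w
    by_contra hw
    have hh0 : h ≠ 0 := fun h0 => hw (h0 ▸ zero_mem _)
    have hm : w.ord h < 0 := by
      by_contra hcon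
      push Not at hcon
      exact hw ((hw_mem_iff_ord_nonneg w hh0).mpr hcon)
    have h27 : w.ord (h + 27) = w.ord h := by
      rw [e27]
      exact hw_ord_add_eq_of_lt w hh0 n27 (by rw [hw_ord_algebraMap]; exact hm)
    have h3 : w.ord (h + 3) = w.ord h := by
      rw [e3]
      exact hw_ord_add_eq_of_lt w hh0 n3 (by rw [hw_ord_algebraMap]; exact hm)
    have hne27 : h + 27 ≠ 0 := by
      intro hz
      rw [hz, Place.ord_zero] at h27
      omega
    have hne3 : h + 3 ≠ 0 := by
      intro hz
      rw [hz, Place.ord_zero] at h3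
      omega
    have hL : w.ord ((h + 27) * (h + 3) ^ 3 * (x - algebraMap K F c)) =
        4 * w.ord h + w.ord (x - algebraMap K F c) := by
      rw [w.ord_mul (mul_ne_zero hne27 (pow_ne_zero 3 hne3)) hg0,
        w.ord_mul hne27 (pow_ne_zero 3 hne3), ← zpow_natCast, w.ord_zpow, h27, h3]
      push_cast
      ring
    have hR : w.ord (1728 * x * h) = w.ord x + w.ord h := by
      rw [e1728, w.ord_mul (mul_ne_zero n1728 hx0) hh0, w.ord_mul n1728 hx0,
        hw_ord_algebraMap]
      ring
    have key : 3 * w.ord h = w.ord x - w.ord (x - algebraMap K F c) := by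
      rw [heq] at hL
      omega
    rcases lt_or_ge (w.ord x) 0 with hxneg | hxpos
    · -- pole of `x`
      have h1 : w.ord (x - algebraMap K F c) = w.ord x := by
        rw [sub_eq_add_neg]
        apply hw_ord_add_eq_of_lt w hx0 (neg_ne_zero.mpr ncF)
        rw [hw_ord_neg, hw_ord_algebraMap]
        exact hxneg
      omega
    · have hxA : x ∈ w.toValuationSubring := (hw_mem_iff_ord_nonneg w hx0).mpr hxpos
      have hgA : x - algebraMap K F c ∈ w.toValuationSubring :=
        sub_mem hxA (w.algebraMap_mem' c)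
      have hgpos : 0 ≤ w.ord (x - algebraMap K F c) := (hw_mem_iff_ord_nonneg w hg0).mp hgA
      rcases hgpos.eq_or_lt with h0 | hpos
      · omega
      · -- a place over `c`
        have hx1 : w.ord x = 0 := by
          have h1 : x = algebraMap K F c + (x - algebraMap K F c) := by ring
          rw [h1]
          rw [hw_ord_add_eq_of_lt w ncF hg0 (by rw [hw_ord_algebraMap]; exact hpos),
            hw_ord_algebraMap]
        have hdiv : (3 : ℤ) ∣ w.ord (x - algebraMap K F c) := ⟨-w.ord h, by omega⟩
        exact s52w_not_three_dvd hx c w hpos (h45 w hpos) hdiv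
  -- Step 2: `h` is a constant
  have hsep : Fermat.Agent.JT3.rt_IsSepGen K x := ⟨hx, inferInstance, inferInstance⟩
  obtain ⟨η, hη⟩ := Fermat.Agent.JT3.rt_const_of_forall_mem hsep h hnopole
  -- Step 3: contradiction in `K[x]`
  have hα : algebraMap K F ((η + 27) * (η + 3) ^ 3 - 1728 * η) * x =
      algebraMap K F ((η + 27) * (η + 3) ^ 3 * c) := by
    simp only [map_sub, map_mul, map_add, map_pow, map_ofNat]
    rw [hη] at heq
    linear_combination heq
  by_cases hz : (η + 27) * (η + 3) ^ 3 - 1728 * η = 0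
  · rw [hz, map_zero, zero_mul] at hα
    have h1 : (η + 27) * (η + 3) ^ 3 * c = 0 :=
      (map_eq_zero_iff _ (algebraMap K F).injective).mp hα.symm
    have h2 : (η + 27) * (η + 3) ^ 3 = 0 := by
      rcases mul_eq_zero.mp h1 with h | h
      · exact h
      · exact absurd h hc
    have h3 : η = 0 := by
      rw [h2, zero_sub, neg_eq_zero] at hz
      rcases mul_eq_zero.mp hz with h | h
      · norm_num at h
      · exact h
    rw [h3] at h2
    norm_num at h2
  · apply hx
    have h1 : x = algebraMap K F (((η + 27) * (η + 3) ^ 3 * c) /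
        ((η + 27) * (η + 3) ^ 3 - 1728 * η)) := by
      rw [map_div₀, eq_div_iff ((map_ne_zero_iff _ (algebraMap K F).injective).mpr hz), mul_comm]
      exact hα
    rw [h1]
    exact isAlgebraic_algebraMap _

end Fermat.Agent.S52
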