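/-
S52 / [U-TRANS] (helper19): glue between a "big" field `Ω` where the torsion points of the
universal family live (Laurent series, an algebraic closure, …) and the rational function field
`RatFunc k` over which the consumers [SPEC] / [COP] state their hypothesis `h25`.

* `s52w_card_le`      : generic: `φ : F →+* K`, points of `W.map φ` killed by `n` whose coordinates
                        lie in the range of `φ` give as many points of `W` killed by `n`.
* `s52w_card_le_ratFunc` : `K = Ω ∋ s` transcendental over `k`, `F = RatFunc k`, coordinates in `k⟮s⟯`.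
-/
import Mathlib
import Fermat.Agent.S52.NOS.Short

set_option autoImplicit false

namespace Fermat.Agent.S52

open Polynomial WeierstrassCurve WeierstrassCurve.Affine

section Generic

variable {F K : Type*} [Field F] [Field K] [DecidableEq F] [DecidableEq K]

/-- the point map induced by a ring homomorphism of fields (Mathlib's `Point.map` for the algebra
structure `φ.toAlgebra`). -/
noncomputable def s52w_map (φ : F →+* K) (W : WeierstrassCurve F) :
    W.toAffine.Point →+ (W.map φ).toAffine.Point :=
  letI : Algebra F K := φ.toAlgebra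
  (Point.map (W' := W.toAffine) (Algebra.ofId F K) :
    (W.toAffine⁄F).Point →+ (W.toAffine⁄K).Point)

theorem s52w_map_injective (φ : F →+* K) (W : WeierstrassCurve F) :
    Function.Injective (s52w_map φ W) := by
  let _ : Algebra F K := φ.toAlgebra
  exact Point.map_injective (W' := W.toAffine) (Algebra.ofId F K)

omit [DecidableEq F] [DecidableEq K] in
theorem s52w_nonsingular_iff (φ : F →+* K) (W : WeierstrassCurve F) (x y : F) :
    (W.map φ).toAffine.Nonsingular (φ x) (φ y) ↔ W.toAffine.Nonsingular x y := by
  let _ : Algebra F K := φ.toAlgebra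
  exact W.toAffine.map_nonsingular φ.injective x y

theorem s52w_map_some (φ : F →+* K) (W : WeierstrassCurve F) {x y : F}
    (h : W.toAffine.Nonsingular x y) :
    s52w_map φ W (Point.some x y h) =
      Point.some (φ x) (φ y) ((s52w_nonsingular_iff φ W x y).mpr h) := rfl

/-- **Generic transport**: points of `W.map φ` killed by `n`, with coordinates in the range of
`φ`, come from points of `W` killed by `n`. -/
theorem s52w_card_le (φ : F →+* K) (W : WeierstrassCurve F) (n : ℕ)
    [Finite {P : W.toAffine.Point // n • P = 0}] (T : Finset (K × K))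
    (hT : ∀ p ∈ T, p.1 ∈ φ.range ∧ p.2 ∈ φ.range ∧
      ∃ h : (W.map φ).toAffine.Nonsingular p.1 p.2, n • (Point.some p.1 p.2 h) = 0) :
    T.card + 1 ≤ Nat.card {P : W.toAffine.Point // n • P = 0} := by
  classical
  -- preimages
  have hex : ∀ p : T, ∃ P : W.toAffine.Point, n • P = 0 ∧ P ≠ 0 ∧
      ∃ h : (W.map φ).toAffine.Nonsingular p.1.1 p.1.2,
        s52w_map φ W P = Point.some p.1.1 p.1.2 h := by
    rintro ⟨⟨p1, p2⟩, hp⟩
    obtain ⟨⟨x, hx⟩, ⟨y, hy⟩, h, hn⟩ := hT _ hp
    simp only at hx hy h hn ⊢
    subst hx hy
    have h' : W.toAffine.Nonsingular x y := (s52w_nonsingular_iff φ W x y).mp h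
    refine ⟨Point.some x y h', ?_, by simp, h, ?_⟩
    · apply s52w_map_injective φ W
      rw [map_nsmul, s52w_map_some, map_zero]
      exact hn
    · rw [s52w_map_some]
  choose g hg1 hg2 hg3 using hex
  let G : Option T → {P : W.toAffine.Point // n • P = 0} := fun o =>
    match o with
    | none => ⟨0, by simp⟩
    | some p => ⟨g p, hg1 p⟩
  have hG : Function.Injective G := by
    rintro (_ | p) (_ | q) h
    · rfl
    · exfalso
      have : (0 : W.toAffine.Point) = g q := congrArg Subtype.val h
      exact hg2 q this.symm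
    · exfalso
      have : g p = (0 : W.toAffine.Point) := congrArg Subtype.val h
      exact hg2 p this
    · have h1 : g p = g q := congrArg Subtype.val h
      obtain ⟨hp, hpe⟩ := hg3 p
      obtain ⟨hq, hqe⟩ := hg3 q
      have h2 : Point.some p.1.1 p.1.2 hp = Point.some q.1.1 q.1.2 hq := by
        rw [← hpe, ← hqe, h1]
      have h3 := Point.some.inj h2
      congr 1
      apply Subtype.ext
      exact Prod.ext h3.1 h3.2
  have := Nat.card_le_card_of_injective G hG
  rw [Nat.card_eq_fintype_card, Fintype.card_option, Fintype.card_coe] at this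
  exact this

end Generic

section RatFuncCase

open IntermediateField

variable {k Ω : Type*} [Field k] [Field Ω] [Algebra k Ω]

/-- `θ : RatFunc k → Ω`, `X ↦ s`, for `s` transcendental over `k`. -/
noncomputable def s52w_theta (s : Ω) (hs : Transcendental k s) : RatFunc k →+* Ω :=
  ((IntermediateField.val k⟮s⟯).comp
    (RatFunc.algEquivOfTranscendental s hs).toAlgHom).toRingHom

theorem s52w_theta_algebraMap (s : Ω) (hs : Transcendental k s) (g : k[X]) :
    s52w_theta s hs (algebraMap k[X] (RatFunc k) g) = aeval s g := by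
  simp only [s52w_theta, AlgHom.toRingHom_eq_coe, RingHom.coe_coe, AlgHom.coe_comp,
    AlgEquiv.coe_toAlgHom, Function.comp_apply, RatFunc.algEquivOfTranscendental_algebraMap,
    IntermediateField.coe_val]
  rw [← IntermediateField.coe_val, ← Polynomial.aeval_algHom_apply]
  simp

theorem s52w_mem_range_theta (s : Ω) (hs : Transcendental k s) {x : Ω} (hx : x ∈ k⟮s⟯) :
    x ∈ (s52w_theta s hs).range := by
  refine ⟨(RatFunc.algEquivOfTranscendental s hs).symm ⟨x, hx⟩, ?_⟩
  simp [s52w_theta]

theorem s52w_short_map_theta (s : Ω) (hs : Transcendental k s) (a b : k[X]) :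
    (s52n_short (algebraMap k[X] (RatFunc k) a) (algebraMap k[X] (RatFunc k) b)).map
      (s52w_theta s hs) = s52n_short (aeval s a) (aeval s b) := by
  rw [s52n_short_map, s52w_theta_algebraMap, s52w_theta_algebraMap]

/-- **[U-TRANS]**: points killed by `n` on `y² = x³ + a(s) x + b(s)` over `Ω`, with coordinates in
`k(s)`, `s` transcendental, give as many points killed by `n` on `y² = x³ + a x + b` over
`RatFunc k`. -/
theorem s52w_card_le_ratFunc [DecidableEq (RatFunc k)] [DecidableEq Ω] (s : Ω)
    (hs : Transcendental k s) (a b : k[X]) (n : ℕ)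
    [Finite {P : (s52n_short (algebraMap k[X] (RatFunc k) a)
      (algebraMap k[X] (RatFunc k) b)).toAffine.Point // n • P = 0}]
    (T : Finset (Ω × Ω))
    (hT : ∀ p ∈ T, p.1 ∈ k⟮s⟯ ∧ p.2 ∈ k⟮s⟯ ∧
      ∃ h : (s52n_short (aeval s a) (aeval s b)).toAffine.Nonsingular p.1 p.2,
        n • (Point.some p.1 p.2 h) = 0) :
    T.card + 1 ≤ Nat.card {P : (s52n_short (algebraMap k[X] (RatFunc k) a)
      (algebraMap k[X] (RatFunc k) b)).toAffine.Point // n • P = 0} := by
  have key := s52w_card_le (s52w_theta s hs)
    (s52n_short (algebraMap k[X] (RatFunc k) a) (algebraMap k[X] (RatFunc k) b)) n T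
  rw [s52w_short_map_theta] at key
  apply key
  intro p hp
  obtain ⟨h1, h2, h3⟩ := hT p hp
  exact ⟨s52w_mem_range_theta s hs h1, s52w_mem_range_theta s hs h2, h3⟩

end RatFuncCase

end Fermat.Agent.S52
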