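/-
S52 / [U-TRANS], file 2: the hypothesis `h25` of [SPEC] / [COP] from 24 nonzero points of order
dividing `5` with coordinates in `ℚ̄(s)`.
-/
import Fermat.Agent.S52.UTR.Main
import Fermat.Agent.S52.Seams
import Fermat.Agent.S13.Ladder.Count

set_option autoImplicit false

namespace Fermat.Agent.S52

open Polynomial WeierstrassCurve WeierstrassCurve.Affine IntermediateField

/-- finiteness of the `5`-torsion over any field of characteristic zero (S13 ladder). -/
theorem s52w_finite_five {K : Type*} [Field K] [DecidableEq K] [CharZero K]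
    (W : WeierstrassCurve K) : Finite {P : W.toAffine.Point // 5 • P = 0} := by
  have h := (Fermat.Agent.S13.ld_torsion_finite W.toAffine 2).1
  have e : {P : W.toAffine.Point | (2 * 2 + 1) • P = 0} = {P : W.toAffine.Point | 5 • P = 0} := by
    norm_num
  rw [e] at h
  exact h.to_subtype

/-- the coefficient map `ℚ[X] → ℚ̄(X)` of [SPEC] / [COP]. -/
noncomputable def s52w_iota : Polynomial ℚ →+* RatFunc s52_Qb :=
  (algebraMap (Polynomial s52_Qb) (RatFunc s52_Qb)).comp
    (Polynomial.mapRingHom (algebraMap ℚ s52_Qb))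

/-- **[U-TRANS] for the consumers**: `Ω ⊇ ℚ̄`, `s ∈ Ω` transcendental over `ℚ̄`, `a b : ℚ[X]`;
24 points killed by `5` on `y² = x³ + a(s) x + b(s)` over `Ω` with coordinates in `ℚ̄(s)`
give `h25` over `RatFunc ℚ̄`. -/
theorem s52w_h25 {Ω : Type*} [Field Ω] [Algebra s52_Qb Ω] [DecidableEq Ω]
    [DecidableEq (RatFunc s52_Qb)] (s : Ω) (hs : Transcendental s52_Qb s) (a b : Polynomial ℚ)
    (T : Finset (Ω × Ω)) (hcard : T.card = 24)
    (hT : ∀ p ∈ T, p.1 ∈ s52_Qb⟮s⟯ ∧ p.2 ∈ s52_Qb⟮s⟯ ∧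
      ∃ h : (s52n_short (aeval s (a.map (algebraMap ℚ s52_Qb)))
          (aeval s (b.map (algebraMap ℚ s52_Qb)))).toAffine.Nonsingular p.1 p.2,
        5 • (Point.some p.1 p.2 h) = 0) :
    25 ≤ Nat.card {P : (s52n_short (s52w_iota a) (s52w_iota b)).toAffine.Point // 5 • P = 0} := by
  have hfin : Finite {P : (s52n_short
      (algebraMap (Polynomial s52_Qb) (RatFunc s52_Qb) (a.map (algebraMap ℚ s52_Qb)))
      (algebraMap (Polynomial s52_Qb) (RatFunc s52_Qb)
        (b.map (algebraMap ℚ s52_Qb)))).toAffine.Point // 5 • P = 0} :=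
    s52w_finite_five _
  have := s52w_card_le_ratFunc (k := s52_Qb) s hs (a.map (algebraMap ℚ s52_Qb))
    (b.map (algebraMap ℚ s52_Qb)) 5 T hT
  rw [hcard] at this
  exact this

end Fermat.Agent.S52
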